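import Fermat.Agent.Mazur.Eisenstein.HeckeCommute
import Fermat.Agent.Mazur.Eisenstein.Datum
import Fermat.Agent.GaloisReps.Results

/-!
# The torsion of `J₀(p)` in lattice coordinates, as a Hecke module
-/

set_option autoImplicit false
set_option linter.style.haveILetI false
set_option linter.unusedSectionVars false
set_option maxHeartbeats 800000

noncomputable section

open ModularCurve Matrix

namespace Fermat.Agent.Mazur.Eisenstein

open Fermat.Agent.GaloisReps

variable (N : ℕ) [NeZero N] [Fact N.Prime] (r : ℕ) [Fact r.Prime]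

/-- The map from the free Hecke algebra. -/
def toFullHecke : HeckeAlg →+* FullHecke N :=
  MvPolynomial.eval₂Hom (Int.castRingHom (FullHecke N))
    fun l : Nat.Primes => HeckeDuality.heckeOp N 2 l l.2

theorem toFullHecke_heckeGen (l : Nat.Primes) :
    toFullHecke N (heckeGen l) = HeckeDuality.heckeOp N 2 l l.2 :=
  MvPolynomial.eval₂Hom_X' _ _ l

theorem toFullHecke_surjective : Function.Surjective (toFullHecke N) := by
  rintro ⟨x, hx⟩
  have : ∃ t : HeckeAlg, ((toFullHecke N t : FullHecke N) : Module.End ℂ _) = x := by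
    induction hx using Algebra.adjoin_induction with
    | mem y hy =>
      rcases hy with ⟨l, hl, hlN, -, rfl⟩ | ⟨q, hqN, hq, -, rfl⟩
      · refine ⟨heckeGen (⟨l, hl⟩ : Nat.Primes), (congrArg Subtype.val
          (toFullHecke_heckeGen N ⟨l, hl⟩)).trans ?_⟩
        show (HeckeDuality.heckeOp N 2 l hl).1 = _
        rw [HeckeDuality.heckeOp, dif_neg hlN]
        rfl
      · refine ⟨heckeGen (⟨q, hq⟩ : Nat.Primes), (congrArg Subtype.val
          (toFullHecke_heckeGen N ⟨q, hq⟩)).trans ?_⟩
        show (HeckeDuality.heckeOp N 2 q hq).1 = _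
        rw [HeckeDuality.heckeOp, dif_pos hqN]
        rfl
    | algebraMap z =>
      refine ⟨(z : HeckeAlg), ?_⟩
      rw [map_intCast, eq_intCast]
      exact map_intCast (CuspForm.heckeAlgebra N 2 ∅).val z
    | add a b _ _ ha hb =>
      obtain ⟨s, rfl⟩ := ha; obtain ⟨t, rfl⟩ := hb
      exact ⟨s + t, by rw [map_add]; rfl⟩
    | mul a b _ _ ha hb =>
      obtain ⟨s, rfl⟩ := ha; obtain ⟨t, rfl⟩ := hb
      exact ⟨s * t, by rw [map_mul]; rfl⟩
  obtain ⟨t, ht⟩ := this
  exact ⟨t, Subtype.ext ht⟩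

/-- The Hecke matrices on the lattice. -/
def heckeMat : HeckeAlg →+* Matrix (Fin (2 * Gamma0.genus N)) (Fin (2 * Gamma0.genus N)) ℤ :=
  (latticeMat N).comp (toFullHecke N)

/-- The identifications of the torsion used for the descent. -/
def tateIso : TorsionIso N r := torsionIso N r (conjProperty N)

/-- The torsion points with given coordinates. -/
def tateι (m : ℕ) : (Fin (2 * Gamma0.genus N) → ZMod (r ^ m)) →+ JZero N :=
  (JTors N r m).subtype.comp ((tateIso N r).psi m).symm.toAddMonoidHom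

theorem tateι_psi (m : ℕ) (x : JTors N r m) : tateι N r m ((tateIso N r).psi m x) = x :=
  congrArg Subtype.val ((tateIso N r).psi m |>.symm_apply_apply x)

theorem tateι_injective (m : ℕ) : Function.Injective (tateι N r m) :=
  Subtype.val_injective.comp ((tateIso N r).psi m).symm.injective

theorem exists_tateι_eq (m : ℕ) (x : JZero N) (hx : r ^ m • x = 0) :
    ∃ v, tateι N r m v = x :=
  ⟨(tateIso N r).psi m ⟨x, AlgebraicCurve.Pic0.mem_torsion.mpr (by rwa [natCast_zsmul])⟩,
    tateι_psi N r m _⟩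

theorem pow_smul_tateι (m : ℕ) (v : Fin (2 * Gamma0.genus N) → ZMod (r ^ m)) :
    r ^ m • tateι N r m v = 0 := by
  have h := AlgebraicCurve.Pic0.mem_torsion.mp (((tateIso N r).psi m).symm v).2
  rwa [natCast_zsmul] at h

theorem castHom_redVec (m : ℕ) (v : Fin (2 * Gamma0.genus N) → ℤ_[r]) :
    (fun i => ZMod.castHom (pow_dvd_pow r m.le_succ) (ZMod (r ^ m))
      (redVec r (2 * Gamma0.genus N) (m + 1) v i)) = redVec r (2 * Gamma0.genus N) m v := by
  funext i
  exact RingHom.congr_fun (PadicInt.zmod_cast_comp_toZModPow m (m + 1) m.le_succ) (v i)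

theorem tateι_compat (m : ℕ) (v : Fin (2 * Gamma0.genus N) → ℤ_[r]) :
    r • tateι N r (m + 1) (redVec r (2 * Gamma0.genus N) (m + 1) v)
      = tateι N r m (redVec r (2 * Gamma0.genus N) m v) := by
  obtain ⟨x, hx⟩ := ((tateIso N r).psi (m + 1)).surjective (redVec r (2 * Gamma0.genus N) (m + 1) v)
  rw [← hx, tateι_psi]
  have hmem : r • (x : JZero N) ∈ JTors N r m := by
    refine AlgebraicCurve.Pic0.mem_torsion.mpr ?_
    rw [natCast_zsmul, ← mul_smul, ← pow_succ]
    have h := AlgebraicCurve.Pic0.mem_torsion.mp x.2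
    rwa [natCast_zsmul] at h
  refine (tateι_psi N r m ⟨_, hmem⟩).symm.trans (congrArg (tateι N r m) ?_)
  have h := (tateIso N r).compat m x ⟨_, hmem⟩ rfl
  rw [← castHom_redVec, ← hx, TorsionIso.psi_apply, h]
  rfl

theorem redVec_mulVec (m : ℕ)
    (Y : Matrix (Fin (2 * Gamma0.genus N)) (Fin (2 * Gamma0.genus N)) ℤ_[r])
    (v : Fin (2 * Gamma0.genus N) → ℤ_[r]) :
    redVec r (2 * Gamma0.genus N) m (Y *ᵥ v) =
      Y.map (PadicInt.toZModPow m) *ᵥ redVec r (2 * Gamma0.genus N) m v := by
  funext i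
  exact RingHom.map_mulVec (PadicInt.toZModPow m) Y v i

theorem tateι_gal (m : ℕ) (g : AbsGal) (v : Fin (2 * Gamma0.genus N) → ℤ_[r]) :
    g • tateι N r m (redVec r (2 * Gamma0.genus N) m v) =
      tateι N r m (redVec r (2 * Gamma0.genus N) m ((tateIso N r).gal g *ᵥ v)) := by
  obtain ⟨x, hx⟩ := ((tateIso N r).psi m).surjective (redVec r (2 * Gamma0.genus N) m v)
  rw [redVec_mulVec, TorsionIso.map_gal, ← hx, TorsionIso.galLvl_mulVec, tateι_psi, tateι_psi]
  rfl

theorem heckeModule_tateι_gen (m : ℕ) (l : Nat.Primes)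
    (w : Fin (2 * Gamma0.genus N) → ZMod (r ^ m)) :
    letI := heckeModuleBar N
    heckeGen l • tateι N r m w = tateι N r m ((heckeMat N (heckeGen l)).map
      (Int.castRingHom (ZMod (r ^ m))) *ᵥ w) := by
  letI := heckeModuleBar N
  obtain ⟨x, rfl⟩ := ((tateIso N r).psi m).surjective w
  rw [show heckeMat N (heckeGen l) = latticeMat N (toFullHecke N (heckeGen l)) from rfl,
    toFullHecke_heckeGen, latticeMat_heckeOp, ← TorsionIso.mat_heckeTors (tateIso N r),
    TorsionIso.mat_mulVec, tateι_psi, tateι_psi,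
    heckeModuleBar_heckeGen_smul (heckeOperatorsCommuteBar N)]
  rfl

theorem heckeModule_tateι (m : ℕ) (t : HeckeAlg) :
    letI := heckeModuleBar N
    ∀ w : Fin (2 * Gamma0.genus N) → ZMod (r ^ m),
    t • tateι N r m w = tateι N r m ((heckeMat N t).map (Int.castRingHom (ZMod (r ^ m))) *ᵥ w) := by
  letI := heckeModuleBar N
  induction t using MvPolynomial.induction_on with
  | C a =>
    intro w
    rw [heckeModuleBar_C_smul, show (MvPolynomial.C a : HeckeAlg) = ((a : ℤ) : HeckeAlg) from
      map_intCast (MvPolynomial.C : ℤ →+* HeckeAlg) a |>.symm ▸ by simp, map_intCast,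
      ← map_zsmul]
    congr 1
    rw [← RingHom.mapMatrix_apply, map_intCast, ← zsmul_one, smul_mulVec, one_mulVec]
  | add f g hf hg =>
    intro w
    rw [add_smul, hf, hg, ← map_add, map_add (heckeMat N),
      Matrix.map_add _ (map_add (Int.castRingHom (ZMod (r ^ m)))), add_mulVec]
  | mul_X f l hf =>
    intro w
    rw [mul_smul, show (MvPolynomial.X l : HeckeAlg) = heckeGen l from rfl, heckeModule_tateι_gen,
      hf, map_mul, Matrix.map_mul, mulVec_mulVec]

theorem tateι_mat (m : ℕ) (t : HeckeAlg) (v : Fin (2 * Gamma0.genus N) → ℤ_[r]) :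
    letI := heckeModuleBar N
    t • tateι N r m (redVec r (2 * Gamma0.genus N) m v) =
      tateι N r m (redVec r (2 * Gamma0.genus N) m (intMat r (heckeMat N t) *ᵥ v)) := by
  letI := heckeModuleBar N
  rw [redVec_mulVec, heckeModule_tateι, show intMat r (heckeMat N t) =
    (heckeMat N t).map (Int.castRingHom ℤ_[r]) from rfl, map_intCast_toZModPow]

end Fermat.Agent.Mazur.Eisenstein

end
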