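import Fermat.Agent.Mazur.Eisenstein.EigenSystems
import Fermat.Agent.Mazur.Eisenstein.TateMaps
import Fermat.Agent.GaloisReps.Attach
import Fermat.Agent.GaloisReps.CoeffExt

/-!
# The planes of the Tate module of `J₀(p)`: a basis of Hecke eigenvectors, determinant cyclotomic
-/

set_option autoImplicit false
set_option linter.style.haveILetI false
set_option maxHeartbeats 800000

noncomputable section

open Module Matrix Polynomial

namespace Fermat.Agent.Mazur.Eisenstein

open Fermat.Agent.GaloisReps Fermat.Agent.Arith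

variable {N r : ℕ} [NeZero N] [Fact r.Prime]

/-- Vectors in eigenspaces of distinct characters with zero sum are zero. -/
theorem eq_zero_of_sum_eigen {A K : Type*} [CommRing A] [Field K] {d : ℕ}
    (h : A →+* Matrix (Fin d) (Fin d) ℤ) {ι : Type*} (θ : ι → A →+* K) (hθ : Function.Injective θ)
    (s : Finset ι) : ∀ v : ι → (Fin d → K), (∀ i ∈ s, v i ∈ eigenspace h (θ i)) →
      ∑ i ∈ s, v i = 0 → ∀ i ∈ s, v i = 0 := by
  classical
  induction s using Finset.induction_on with
  | empty => exact fun v _ _ i hi => absurd hi (Finset.notMem_empty i)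
  | @insert a s ha ih =>
    intro v hv hsum
    rw [Finset.sum_insert ha] at hsum
    have hs : ∀ i ∈ s, v i = 0 := by
      intro i hi
      obtain ⟨t, ht⟩ : ∃ t, θ i t ≠ θ a t := by
        by_contra! h'
        exact ha (hθ (RingHom.ext h') ▸ hi)
      have hzero : ∑ j ∈ s, (θ j t - θ a t) • v j = 0 := by
        have h1 : (matIn h K t) *ᵥ (v a + ∑ j ∈ s, v j) = 0 := by rw [hsum, mulVec_zero]
        rw [mulVec_add, mulVec_sum, (mem_eigenspace h (θ a) _).mp (hv a (Finset.mem_insert_self a s)),
          Finset.sum_congr rfl fun j hj =>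
            (mem_eigenspace h (θ j) _).mp (hv j (Finset.mem_insert_of_mem hj)) t] at h1
        have h2 : θ a t • (v a + ∑ j ∈ s, v j) = 0 := by rw [hsum, smul_zero]
        rw [smul_add, Finset.smul_sum] at h2
        simp only [sub_smul, Finset.sum_sub_distrib]
        linear_combination (norm := abel) h1 - h2
      have := ih (fun j => (θ j t - θ a t) • v j)
        (fun j hj => Submodule.smul_mem _ _ (hv j (Finset.mem_insert_of_mem hj))) hzero i hi
      exact (smul_eq_zero.mp this).resolve_left (sub_ne_zero.mpr ht)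
    intro i hi
    rcases Finset.mem_insert.mp hi with rfl | hi
    · rwa [Finset.sum_eq_zero hs, add_zero] at hsum
    · exact hs i hi

variable (D : HeckeGaloisModel N r) {O : Type} [CommRing O] [IsDomain O]
  [IsDiscreteValuationRing O] [CharZero O] [Algebra ℤ_[r] O]

/-- The determinant on an eigen-lattice is the cyclotomic character. -/
theorem det_eigenAction_eq_chi (hp : (r : O) ∈ IsLocalRing.maximalIdeal O)
    (θ : FullHecke N →+* O) (g : AbsGal) :
    LinearMap.det (D.eigenAction (algebraMap ℤ_[r] O) θ g) =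
      algebraMap ℤ_[r] O (chi r g : ℤ_[r]) := by
  set ι := algebraMap ℤ_[r] O
  refine sub_eq_zero.mp (HeckeGaloisModel.eq_zero_of_forall_pow_dvd hp fun n => ?_)
  haveI : NeZero (r ^ n) := ⟨pow_ne_zero _ (Fact.out : r.Prime).ne_zero⟩
  obtain ⟨ζ, hζ⟩ := exists_primitiveRoot (r ^ n)
  obtain ⟨L₁, hL₁, h₁⟩ := D.gal_continuous n
  haveI : FiniteDimensional ℚ (IntermediateField.adjoin ℚ {ζ}) :=
    IntermediateField.adjoin.finiteDimensional (Algebra.IsIntegral.isIntegral ζ)
  obtain ⟨l, hl, hlS, A, hA, σ, hσ, i, hi⟩ :=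
    frobeniusDensity (L₁ ⊔ IntermediateField.adjoin ℚ {ζ}) inferInstance g (N * r).primeFactors
  have hlN : ¬ l ∣ N * r := fun hd => hlS (Nat.mem_primeFactors.mpr
    ⟨hl, hd, mul_ne_zero (NeZero.ne N) (Fact.out : r.Prime).ne_zero⟩)
  have hfix := inv_mul_fixes (fun x hx => (hi x hx).symm)
  have hdetσ : LinearMap.det (D.eigenAction ι θ σ) = (l : O) := by
    rw [LinearMap.det_eq_sign_charpoly_coeff,
      D.charpoly_eigenAction_frobenius ι θ frobeniusDensity hp hl hlN hA hσ,
      D.finrank_eigenspace_domain θ]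
    simp
  have hgζ : g ζ = ζ ^ (l ^ i) := by
    rw [hi ζ (le_sup_right (a := L₁) (IntermediateField.mem_adjoin_simple_self ℚ ζ))]
    exact pow_apply_root (frobenius_apply_root hA hl hσ hζ.pow_eq_one fun hd =>
      hlN (dvd_mul_of_dvd_right (hl.dvd_of_dvd_pow hd) N)) i
  have hall : ∀ z : AlgebraicClosure ℚ, z ^ r ^ n = 1 → g z = z ^ (l ^ i) := fun z hz => by
    obtain ⟨k, -, rfl⟩ := hζ.eq_pow_of_pow_eq_one hz
    rw [map_pow, hgζ, pow_right_comm]
  have hchi := toZModPow_chi_eq g hall
  obtain ⟨w, hw⟩ : (r : ℤ_[r]) ^ n ∣ (chi r g : ℤ_[r]) - (l ^ i : ℕ) := by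
    rw [← Ideal.mem_span_singleton, ← PadicInt.ker_toZModPow, RingHom.mem_ker, map_sub, hchi,
      map_natCast, sub_self]
  obtain ⟨u, hu⟩ := D.det_congr ι θ (g := σ ^ i) (h := g)
    (h₁ _ fun x hx => hfix x ((le_sup_left : L₁ ≤ _) hx))
  rw [map_pow, map_pow, hdetσ] at hu
  refine ⟨u - ι w, ?_⟩
  have hw' := congrArg ι hw
  rw [map_sub, map_mul, map_pow, map_natCast, map_natCast, Nat.cast_pow] at hw'
  linear_combination hu - hw'

/-- A copy of `ℤ_[r]`-algebraic numbers inside `Kr r`. -/
theorem exists_closure_hom (r : ℕ) [Fact r.Prime] :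
    ∃ e : AlgebraicClosure (FractionRing ℤ_[r]) →+* Kr r,
      e.comp (algebraMap ℤ_[r] (AlgebraicClosure (FractionRing ℤ_[r]))) = toK r := by
  letI : Algebra ℤ_[r] (Kr r) := (toK r).toAlgebra
  haveI : Module.IsTorsionFree ℤ_[r] (Kr r) :=
    Module.isTorsionFree_iff_algebraMap_injective.mpr toK_injective
  haveI : Algebra.IsAlgebraic ℤ_[r] (AlgebraicClosure (FractionRing ℤ_[r])) :=
    (IsFractionRing.comap_isAlgebraic_iff (K := FractionRing ℤ_[r])).mpr inferInstance
  haveI : Module.IsTorsionFree ℤ_[r] (AlgebraicClosure (FractionRing ℤ_[r])) :=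
    Module.isTorsionFree_iff_algebraMap_injective.mpr (by
      rw [IsScalarTower.algebraMap_eq ℤ_[r] (FractionRing ℤ_[r]), RingHom.coe_comp]
      exact (algebraMap (FractionRing ℤ_[r]) _).injective.comp
        (IsFractionRing.injective ℤ_[r] _))
  let φ : AlgebraicClosure (FractionRing ℤ_[r]) →ₐ[ℤ_[r]] Kr r := IsAlgClosed.lift
  exact ⟨φ.toRingHom, φ.comp_algebraMap⟩

/-- The algebraic integers embed in every algebraically closed field of characteristic zero. -/
theorem exists_algInt_embedding (K : Type) [Field K] [IsAlgClosed K] [CharZero K] :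
    ∃ φ : integralClosure ℤ ℂ →+* K, Function.Injective φ := by
  haveI : Algebra.IsIntegral ℤ (integralClosure ℤ ℂ) := inferInstance
  haveI : Algebra.IsAlgebraic ℤ (integralClosure ℤ ℂ) := Algebra.IsIntegral.isAlgebraic
  haveI : Module.IsTorsionFree ℤ (integralClosure ℤ ℂ) :=
    Module.isTorsionFree_iff_algebraMap_injective.mpr (RingHom.injective_int _)
  haveI : Module.IsTorsionFree ℤ K :=
    Module.isTorsionFree_iff_algebraMap_injective.mpr (RingHom.injective_int _)
  let φ : integralClosure ℤ ℂ →ₐ[ℤ] K := IsAlgClosed.lift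
  refine ⟨φ.toRingHom, (RingHom.injective_iff_ker_eq_bot _).mpr ?_⟩
  haveI : (RingHom.ker φ.toRingHom).IsPrime := RingHom.ker_isPrime _
  refine Ideal.eq_bot_of_comap_eq_bot (R := ℤ) ?_
  rw [eq_bot_iff]
  intro z hz
  have : φ (algebraMap ℤ _ z) = 0 := hz
  rw [AlgHom.commutes] at this
  exact (RingHom.injective_int (algebraMap ℤ K)) (this.trans (map_zero _).symm)

/-- The planes of the Tate module at prime level. -/
theorem exists_planes {p : ℕ} [NeZero p] (hp : p.Prime) (D : HeckeGaloisModel p r)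
    (hd : D.d = 2 * Gamma0.genus p) :
    ∃ (θ : Fin (Gamma0.genus p) → FullHecke p →+* Kr r)
      (b : Basis (Fin (Gamma0.genus p) × Fin 2) (Kr r) (Fin D.d → Kr r)),
      Function.Injective θ ∧
      (∀ (t : FullHecke p) x, matIn D.hecke (Kr r) t *ᵥ b x = θ x.1 t • b x) ∧
      ∀ (g : AbsGal) i, ∃ G : Matrix (Fin 2) (Fin 2) (Kr r),
        (∀ j, (D.gal g).map (toK r) *ᵥ b (i, j) = ∑ k, G k j • b (i, k)) ∧
          G.det = toK r (chi r g) := by
  classical
  haveI : Module.Finite ℤ (FullHecke p) := IntegralStructure.heckeAlgebra_finite p 2 ∅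
  haveI : Finite (IsLocalRing.ResidueField ℤ_[r]) :=
    Finite.of_equiv _ (PadicInt.residueField (p := r)).symm.toEquiv
  obtain ⟨θ₀, hθ₀⟩ := exists_eigen_systems p hp
  obtain ⟨φ, hφ⟩ := exists_algInt_embedding (AlgebraicClosure (FractionRing ℤ_[r]))
  obtain ⟨e, he⟩ := exists_closure_hom r
  let θ : Fin (Gamma0.genus p) → FullHecke p →+* Kr r := fun i => e.comp (φ.comp (θ₀ i))
  have hθ : Function.Injective θ := fun i j h => hθ₀ (RingHom.ext fun t =>
    hφ (e.injective (RingHom.congr_fun h t)))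
  have key : ∀ i, ∃ v : Fin 2 → Fin D.d → Kr r, LinearIndependent (Kr r) v ∧
      (∀ j, v j ∈ eigenspace D.hecke (θ i)) ∧
      ∀ g : AbsGal, ∃ G : Matrix (Fin 2) (Fin 2) (Kr r),
        (∀ j, (D.gal g).map (toK r) *ᵥ v j = ∑ k, G k j • v k) ∧
          G.det = toK r (chi r g) := by
    intro i
    obtain ⟨O, i1, i2, i3, i4, i5, i6, i7, i8, i9, j, θ', hinj, hjinj, hcomm, hθ'⟩ :=
      exists_coeffExt ℤ_[r] (φ.comp (θ₀ i))
    have hpO : (r : O) ∈ IsLocalRing.maximalIdeal O := by
      rw [← map_natCast (algebraMap ℤ_[r] O) r]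
      exact map_nonunit (algebraMap ℤ_[r] O) _ (by
        rw [PadicInt.maximalIdeal_eq_span_p]; exact Ideal.mem_span_singleton_self _)
    set f : O →+* Kr r := e.comp j with hf
    have hfinj : Function.Injective f := e.injective.comp hjinj
    have hfι : f.comp (algebraMap ℤ_[r] O) = toK r := by
      rw [hf, RingHom.comp_assoc, hcomm, he]
    have hfθ : f.comp θ' = θ i := by rw [hf, RingHom.comp_assoc, hθ']
    set b := D.eigenBasis θ'
    refine ⟨fun a k => f ((b a : Fin D.d → O) k), ?_, fun a => ?_, fun g => ?_⟩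
    · let L : (Fin D.d → O) →ₗ[O] (Fin D.d → FractionRing O) :=
        LinearMap.compLeft (Algebra.linearMap O (FractionRing O)) (Fin D.d)
      have hLker : LinearMap.ker L = ⊥ := LinearMap.ker_eq_bot.mpr fun x y h =>
        funext fun k => IsFractionRing.injective O (FractionRing O) (congrFun h k)
      have h1 : LinearIndependent (FractionRing O) fun a => L (b a : Fin D.d → O) := by
        rw [← LinearIndependent.iff_fractionRing O (FractionRing O)]
        exact (b.linearIndependent.map' (eigenspace D.hecke θ').subtype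
          (Submodule.ker_subtype _)).map' L hLker
      have h2 := linearIndependent_comp_fieldHom (IsFractionRing.lift hfinj) h1
      convert h2 using 2 with a
      funext k
      exact (IsFractionRing.lift_algebraMap hfinj _).symm
    · rw [← hfθ]
      exact D.map_mem_eigenspace f θ' (b a).2
    · refine ⟨(D.eigenMatrix (algebraMap ℤ_[r] O) θ' g).map f, fun a => ?_, ?_⟩
      · have hsum := congrArg Subtype.val (b.sum_repr (D.eigenAction (algebraMap ℤ_[r] O) θ' g (b a)))
        rw [HeckeGaloisModel.coe_eigenAction, Submodule.coe_sum] at hsum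
        funext k
        have hk := congrArg f (congrFun hsum k)
        rw [Finset.sum_apply, map_sum, RingHom.map_mulVec, Matrix.map_map, ← RingHom.coe_comp,
          hfι] at hk
        rw [Finset.sum_apply]
        refine hk.symm.trans (Finset.sum_congr rfl fun c _ => ?_)
        simp [HeckeGaloisModel.eigenMatrix, LinearMap.toMatrix_apply, b]
      · rw [← RingHom.mapMatrix_apply, ← RingHom.map_det,
          show (D.eigenMatrix (algebraMap ℤ_[r] O) θ' g).det =
            LinearMap.det (D.eigenAction (algebraMap ℤ_[r] O) θ' g) from LinearMap.det_toMatrix _ _,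
          det_eigenAction_eq_chi D hpO θ' g, ← hfι]
        rfl
  choose v hvli hveig hvgal using key
  have hli : LinearIndependent (Kr r) fun x : Fin (Gamma0.genus p) × Fin 2 => v x.1 x.2 := by
    rw [Fintype.linearIndependent_iff]
    intro c hc x
    rw [Fintype.sum_prod_type] at hc
    have hz := eq_zero_of_sum_eigen D.hecke θ hθ Finset.univ (fun i => ∑ j, c (i, j) • v i j)
      (fun i _ => Submodule.sum_mem _ fun j _ => Submodule.smul_mem _ _ (hveig i j)) hc x.1
      (Finset.mem_univ _)
    exact Fintype.linearIndependent_iff.mp (hvli x.1) (fun j => c (x.1, j)) hz x.2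
  have hne : Nonempty (Fin (Gamma0.genus p) × Fin 2) ∨ D.d = 0 := by
    rcases Nat.eq_zero_or_pos (Gamma0.genus p) with h0 | h0
    · exact Or.inr (by omega)
    · exact Or.inl ⟨(⟨0, h0⟩, 0)⟩
  let B : Basis (Fin (Gamma0.genus p) × Fin 2) (Kr r) (Fin D.d → Kr r) :=
    Basis.mk hli (le_of_eq (hli.span_eq_top_of_card_eq_finrank' (by simp [hd, mul_comm])).symm)
  have hB : ∀ x, B x = v x.1 x.2 := fun x => Basis.mk_apply _ _ x
  refine ⟨θ, B, hθ, fun t x => ?_, fun g i => ?_⟩
  · rw [hB]
    exact (mem_eigenspace D.hecke (θ x.1) _).mp (hveig x.1 x.2) t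
  · obtain ⟨G, hG, hdet⟩ := hvgal i g
    exact ⟨G, fun j => by simp only [hB]; exact hG j, hdet⟩

end Fermat.Agent.Mazur.Eisenstein

end
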