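import Fermat.Agent.Mazur.Eisenstein.Assembly
import Fermat.Agent.Mazur.Eisenstein.Descent
import Fermat.Agent.Mazur.Eisenstein.Inputs
import Fermat.Agent.Mazur.Eisenstein.PlaneData
import Fermat.Agent.GaloisReps.OfInjective

/-!
# The Eisenstein descent on `J₀(p)`, given the geometric inputs
-/

set_option autoImplicit false
set_option linter.style.haveILetI false
set_option linter.unusedSectionVars false
set_option maxHeartbeats 1000000

noncomputable section

open ModularCurve Matrix

namespace Fermat.Agent.Mazur.Eisenstein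

open Fermat.Agent.GaloisReps Fermat.Agent.Arith Fermat.Agent.MordellWeil

variable {p : ℕ} [NeZero p]

/-- The Eisenstein character with prescribed values at `p` and at `r`. -/
def epsChar (p r : ℕ) (ε : HeckeAlg →+* ℤ) : HeckeAlg →+* ℤ :=
  MvPolynomial.eval₂Hom (Int.castRingHom ℤ) fun l : Nat.Primes =>
    if (l : ℕ) = p ∨ (l : ℕ) = r then ε (heckeGen l) else 1 + (l : ℤ)

theorem epsChar_heckeGen (r : ℕ) (ε : HeckeAlg →+* ℤ) (l : Nat.Primes) :
    epsChar p r ε (heckeGen l) =
      if (l : ℕ) = p ∨ (l : ℕ) = r then ε (heckeGen l) else 1 + (l : ℤ) :=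
  MvPolynomial.eval₂Hom_X' _ _ l

/-- On a fixed `r`-torsion eigenclass the eigenvalue of `T_l` is `1 + l`. -/
theorem dvd_eigen_sub [Fact p.Prime] {r : ℕ} [Fact r.Prime]
    (hinj : EichlerShimura.InjectiveOnTorsion p) (ε : HeckeAlg →+* ℤ) {x : JZero p}
    (hx : x ≠ 0) (hrx : r • x = 0) (hfix : ∀ σ : GQ, σ • x = x)
    (hε : ∀ t : HeckeAlg, (letI := heckeModuleBar p; t • x) = ε t • x)
    (l : Nat.Primes) (hlp : (l : ℕ) ≠ p) (hlr : (l : ℕ) ≠ r) :
    (r : ℤ) ∣ ε (heckeGen l) - (1 + (l : ℤ)) := by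
  have hr : r.Prime := Fact.out
  have hl : ¬ (l : ℕ) ∣ p * r := fun h => (l.2.dvd_mul.mp h).elim
    (fun h => hlp ((Nat.prime_dvd_prime_iff_eq l.2 Fact.out).mp h))
    fun h => hlr ((Nat.prime_dvd_prime_iff_eq l.2 hr).mp h)
  obtain ⟨A, hA⟩ := exists_liesOverPrime l.2
  obtain ⟨σ, hσ⟩ := exists_isFrobeniusAt hA l.2
  have hmem : x ∈ JTors p r 1 := AlgebraicCurve.Pic0.mem_torsion.mpr (by
    rwa [natCast_zsmul, pow_one])
  have h := (congruenceProperty_of_injective (p := r) hinj l l.2 hl A hA 1 ⟨x, hmem⟩).2 σ hσ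
  rw [hfix, hfix] at h
  have e : heckeOperatorBar p l x = ε (heckeGen l) • x :=
    (heckeModuleBar_heckeGen_smul (heckeOperatorsCommuteBar p) l x).symm.trans (hε _)
  have h' : (1 - ε (heckeGen l) + (l : ℤ)) • x = 0 := by
    rw [add_zsmul, sub_zsmul, one_zsmul, natCast_zsmul, ← e, ← sub_eq_add_neg]
    exact h
  rw [← addOrderOf_dvd_iff_zsmul_eq_zero] at h'
  have ho : addOrderOf x = r := by
    rcases (Nat.dvd_prime hr).mp (addOrderOf_dvd_iff_nsmul_eq_zero.mpr hrx) with h | h
    · exact absurd (AddMonoid.addOrderOf_eq_one_iff.mp h) hx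
    · exact h
  rw [ho] at h'
  have h2 := dvd_neg.mpr h'
  rwa [show -(1 - ε (heckeGen l) + (l : ℤ)) = ε (heckeGen l) - (1 + (l : ℤ)) from by abel] at h2

/-- Two characters congruent on the generators are congruent. -/
theorem dvd_char_sub {n : ℤ} (a b : HeckeAlg →+* ℤ)
    (h : ∀ l : Nat.Primes, n ∣ a (heckeGen l) - b (heckeGen l)) (t : HeckeAlg) :
    n ∣ a t - b t := by
  induction t using MvPolynomial.induction_on with
  | C z =>
    have e : a (MvPolynomial.C z) = b (MvPolynomial.C z) :=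
      RingHom.congr_fun (RingHom.ext_int (a.comp MvPolynomial.C) (b.comp MvPolynomial.C)) z
    rw [e, sub_self]
    exact dvd_zero n
  | add f g hf hg =>
    rw [map_add, map_add, add_sub_add_comm]
    exact dvd_add hf hg
  | mul_X f l hf =>
    rw [map_mul, map_mul, show (MvPolynomial.X l : HeckeAlg) = heckeGen l from rfl,
      show a f * a (heckeGen l) - b f * b (heckeGen l) =
        (a f - b f) * a (heckeGen l) + b f * (a (heckeGen l) - b (heckeGen l)) by ring]
    exact dvd_add (dvd_mul_of_dvd_left hf _) (dvd_mul_of_dvd_right (h l) _)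

set_option maxHeartbeats 2000000 in
/-- The inputs of the descent hold on `J₀(p)`. -/
theorem exists_eisensteinDatum [Fact p.Prime] (h5 : 5 ≤ p) {r : ℕ} [Fact r.Prime] (hrp : r ≠ p)
    (hinj : EichlerShimura.InjectiveOnTorsion p) (hord : OrderProperty p)
    (hss : SemistableProperty p p) (ε : HeckeAlg →+* ℤ) {x : JZero p}
    (hx : x ≠ 0) (hrx : r • x = 0) (hfix : ∀ σ : GQ, σ • x = x)
    (hε : ∀ t : HeckeAlg, (letI := heckeModuleBar p; t • x) = ε t • x) :
    letI := heckeModuleBar p
    ∃ D : EisensteinDatum p r (JZero p) HeckeAlg, D.eps = epsChar p r ε := by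
  classical
  letI := heckeModuleBar p
  have hpp : p.Prime := Fact.out
  have hr : r.Prime := Fact.out
  have hrN : ¬ r ∣ p := fun h => hrp ((Nat.prime_dvd_prime_iff_eq hr hpp).mp h)
  set g := Gamma0.genus p with hg
  set D := jacobianModel p r (conjProperty p) (congruenceProperty_of_injective hinj)
  obtain ⟨θ, b, hθ, hbmat, hbgal⟩ := exists_planes hpp D rfl
  -- the vector of `x`
  obtain ⟨w, hw⟩ := exists_tateι_eq p r 1 x (by rwa [pow_one])
  choose z hz using fun i => ZMod.intCast_surjective (w i)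
  have hv₁ : ∀ u : Fin (2 * g) → ℤ, (fun i => ((u i : ℤ) : ZMod r)) = 0 →
      (fun i => ((u i : ℤ) : ZMod (r ^ 1))) = 0 := fun u hu => funext fun i => by
    have := congrFun hu i
    rw [Pi.zero_apply, ZMod.intCast_zmod_eq_zero_iff_dvd] at this ⊢
    rwa [pow_one]
  have hcongr : ∀ t, (r : ℤ) ∣ epsChar p r ε t - ε t := dvd_char_sub _ _ fun l => by
    rw [epsChar_heckeGen]
    split_ifs with h
    · rw [sub_self]; exact dvd_zero _
    · rw [not_or] at h
      rw [← dvd_neg, neg_sub]
      exact dvd_eigen_sub hinj ε hx hrx hfix hε l h.1 h.2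
  have hsmul : ∀ t, t • x = epsChar p r ε t • x := fun t => by
    obtain ⟨k, hk⟩ := hcongr t
    rw [hε, show epsChar p r ε t = ε t + k * r by linarith, add_zsmul, mul_zsmul, natCast_zsmul,
      hrx, zsmul_zero, add_zero]
  refine ⟨{
    prime := hpp
    five_le := h5
    ne := hrp
    smul_comm := fun σ t y => galois_smul_hecke σ t y
    isOpen := ?_
    divisible := fun y => EichlerShimura.exists_nsmul_eq_JZero r hr.pos y
    d := 2 * g
    mat := heckeMat p
    gal := (tateIso p r).gal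
    gal_mat := fun σ t => D.gal_comm σ (toFullHecke p t)
    ι := tateι p r
    ι_injective := tateι_injective p r
    exists_ι_eq := exists_tateι_eq p r
    ι_compat := tateι_compat p r
    ι_mat := tateι_mat p r
    ι_gal := tateι_gal p r
    ker := kerRed p
    inertia_sub_mem := ?_
    eq_zero_of_mem := ?_
    smul_mem := ?_
    hecke_mem := fun q _ _ A _ t y hy => hecke_mem_kerRed t hy
    exists_bound := ?_
    exists_order := ?_
    semistable := ?_
    eps := epsChar p r ε
    v₁ := fun i => ((z i : ℤ) : ZMod r)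
    v₁_ne := fun h0 => hx (by
      rw [← hw, show w = fun i => ((z i : ℤ) : ZMod (r ^ 1)) from funext fun i => (hz i).symm,
        hv₁ z h0, map_zero])
    mat_v₁ := ?_
    eps_frobenius := ?_
    n := g
    theta := fun i => (θ i).comp (toFullHecke p)
    theta_injective := fun i j h => hθ (RingHom.ext fun t => by
      obtain ⟨s, rfl⟩ := toFullHecke_surjective p t
      exact RingHom.congr_fun h s)
    planeBasis := b
    mat_planeBasis := fun t y => hbmat (toFullHecke p t) y
    gal_planeBasis := fun σ i => hbgal σ i }, rfl⟩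
  · intro y
    obtain ⟨L, hL, hLy⟩ := (x0GalAct p).exists_field_fix y
    haveI := hL
    exact ⟨L.fixingSubgroup, IntermediateField.fixingSubgroup_isOpen L, fun σ hσ =>
      hLy σ ((IntermediateField.mem_fixingSubgroup_iff L σ).mp hσ)⟩
  · intro q hq hqp A hA σ hσ y
    haveI := Fact.mk hq
    haveI := residueField_isAlgClosed A
    exact inertia_sub_mem_kerRed (EichlerShimura.natCast_ne_zero hq
      (fun h => hqp ((Nat.prime_dvd_prime_iff_eq hq hpp).mp h)) hA) hσ y
  · intro q hq hqp A hA m y hqm hmy hy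
    exact eq_zero_of_mem_kerRed hinj hq
      (fun h => hqp ((Nat.prime_dvd_prime_iff_eq hq hpp).mp h)) hA hqm hmy hy
  · intro q hq hqp A hA σ hσ y hy
    haveI := Fact.mk hq
    haveI := residueField_isAlgClosed A
    exact smul_mem_kerRed (EichlerShimura.natCast_ne_zero hq
      (fun h => hqp ((Nat.prime_dvd_prime_iff_eq hq hpp).mp h)) hA) hσ hy
  · intro q hq hqp A hA
    haveI := Fact.mk hq
    haveI := residueField_isAlgClosed A
    exact exists_bound_kerRed (EichlerShimura.natCast_ne_zero hq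
      (fun h => hqp ((Nat.prime_dvd_prime_iff_eq hq hpp).mp h)) hA) hq hA
  · intro A hA m
    obtain ⟨M, i1, i2, i3, i, O, hi, hiG, hrange, hcong⟩ := hord r hr hrN A hA m
    exact ⟨M, i1, i2, i3, i, O, hi, hiG, hrange,
      fun f hf y hy => hcong f hf y (reductionModL_eq_zero_of_mem hy)⟩
  · intro A hA σ hσ m y hy
    exact hss A hA σ hσ (r ^ m) y
      (fun h => hrp ((Nat.prime_dvd_prime_iff_eq hpp hr).mp (hpp.dvd_of_dvd_pow h)).symm) hy
  · intro t
    have h1 := hsmul t
    rw [← hw, heckeModule_tateι, ← map_zsmul] at h1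
    have h2 := tateι_injective p r 1 h1
    funext i
    have h3 := congrFun h2 i
    rw [show w = fun i => ((z i : ℤ) : ZMod (r ^ 1)) from funext fun i => (hz i).symm] at h3
    have e1 : ((heckeMat p t).map (Int.castRingHom (ZMod (r ^ 1))) *ᵥ
        fun i => ((z i : ℤ) : ZMod (r ^ 1))) i = (((heckeMat p t *ᵥ z) i : ℤ) : ZMod (r ^ 1)) :=
      (RingHom.map_mulVec (Int.castRingHom (ZMod (r ^ 1))) (heckeMat p t) z i).symm
    have e2 : ((heckeMat p t).map (Int.castRingHom (ZMod r)) *ᵥ
        fun i => ((z i : ℤ) : ZMod r)) i = (((heckeMat p t *ᵥ z) i : ℤ) : ZMod r) :=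
      (RingHom.map_mulVec (Int.castRingHom (ZMod r)) (heckeMat p t) z i).symm
    rw [e1, Pi.smul_apply, zsmul_eq_mul, ← Int.cast_mul, ZMod.intCast_eq_intCast_iff_dvd_sub] at h3
    rw [e2, Pi.smul_apply, smul_eq_mul, ← Int.cast_mul, ZMod.intCast_eq_intCast_iff_dvd_sub]
    simpa using h3
  · intro q hq hqp hqr A hA σ hσ
    refine ⟨heckeGen (⟨q, hq⟩ : Nat.Primes), ?_, ?_⟩
    · refine (epsChar_heckeGen r ε (⟨q, hq⟩ : Nat.Primes)).trans ?_
      exact if_neg (not_or.mpr ⟨hqp, hqr⟩)
    · have hqN : ¬ q ∣ p * r := fun h => (hq.dvd_mul.mp h).elim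
        (fun h => hqp ((Nat.prime_dvd_prime_iff_eq hq hpp).mp h))
        fun h => hqr ((Nat.prime_dvd_prime_iff_eq hq hr).mp h)
      have := D.gal_frobenius q hq hqN A hA σ hσ
      rwa [show heckeMat p (heckeGen ⟨q, hq⟩) = latticeMat p (HeckeDuality.heckeOp p 2 q hq) from
        congrArg (latticeMat p) (toFullHecke_heckeGen p ⟨q, hq⟩)]

/-- The Eisenstein descent, given the geometric inputs. -/
theorem descentProperty (hp : p.Prime) (h5 : 5 ≤ p) (hinj : EichlerShimura.InjectiveOnTorsion p)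
    (hord : OrderProperty p) (hss : SemistableProperty p p) : DescentProperty p := by
  haveI := Fact.mk hp
  intro r hr c ε hc hεc hpos hrc hrp
  haveI := Fact.mk hr
  letI := heckeModuleBar p
  obtain ⟨k, hk⟩ := hrc
  have hk0 : k ≠ 0 := fun h => by rw [h, mul_zero] at hk; omega
  have hx : k • c ≠ 0 := fun h => by
    have hdvd := Nat.le_of_dvd (Nat.pos_of_ne_zero hk0) (addOrderOf_dvd_of_nsmul_eq_zero h)
    have : k < r * k := lt_mul_of_one_lt_left (Nat.pos_of_ne_zero hk0) hr.one_lt
    omega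
  have hrx : r • k • c = 0 := by rw [← mul_smul, ← hk, addOrderOf_nsmul_eq_zero]
  obtain ⟨D, hD⟩ := exists_eisensteinDatum h5 hrp hinj hord hss ε hx hrx
    (fun σ => by rw [EichlerShimura.galois_smul_nsmul, hc])
    (fun t => by rw [smul_comm, hεc, smul_comm])
  obtain ⟨C, hC⟩ := D.exists_descent
  refine ⟨C, D.t₀, ?_, hC⟩
  have h1 : (r : ℤ) ∣ D.eps D.t₀ - 1 := by
    rw [← ZMod.intCast_eq_intCast_iff_dvd_sub, D.eps_t₀, Int.cast_one]
  rw [hD] at h1
  have h2 : (r : ℤ) ∣ epsChar p r ε D.t₀ - ε D.t₀ := by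
    refine dvd_char_sub _ _ (fun l => ?_) _
    rw [epsChar_heckeGen]
    split_ifs with h
    · rw [sub_self]; exact dvd_zero _
    · rw [not_or] at h
      rw [← dvd_neg, neg_sub]
      exact dvd_eigen_sub hinj ε hx hrx
        (fun σ => by rw [EichlerShimura.galois_smul_nsmul, hc])
        (fun t => by rw [smul_comm, hεc, smul_comm]) l h.1 h.2
  have := dvd_sub h1 h2
  rwa [sub_sub_sub_cancel_left] at this

end Fermat.Agent.Mazur.Eisenstein

end
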