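import Fermat.Agent.Newforms.Semisimple
import Fermat.Agent.GaloisReps.LatticeHecke
import Fermat.Agent.GaloisReps.Characters
import Fermat.Agent.Patching.SmallLevel

/-!
# At prime level there are as many systems of Hecke eigenvalues as the genus
-/

set_option autoImplicit false
set_option linter.style.haveILetI false

noncomputable section

open CongruenceSubgroup ModularFormClass

namespace Fermat.Agent.Mazur.Eisenstein

open Fermat.Agent.Newforms Fermat.Agent.GaloisReps

/-- An eigenvector of the good Hecke operators at prime level is a multiple of an eigenform. -/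
theorem exists_newform_of_good_eigen {p : ℕ} [NeZero p] (hp : p.Prime)
    {f : CuspForm (Gamma0 p) 2} (hf : f ≠ 0)
    (h : ∀ l (hl : l.Prime), ¬ l ∣ p → ∃ c : ℂ, hOp p hl f = c • f) :
    ∃ g : CuspForm (Gamma0 p) 2, g.IsNewform ∧ f = qCoeff f 1 • g := by
  classical
  choose c hc using h
  let lam : ℕ → ℂ := fun l => if hl : l.Prime ∧ ¬ l ∣ p then c l hl.1 hl.2 else 0
  have hlam : ∀ l (hl : l.Prime), ¬ l ∣ p → hOp p hl f = lam l • f := fun l hl hlp => by
    simp only [lam, dif_pos (And.intro hl hlp)]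
    exact hc l hl hlp
  obtain ⟨g₀, hg₀, hcoeff⟩ := exists_eigenform_of_eigen hf (fun l => ¬ l ∣ p) lam hlam
  obtain ⟨M, g, hM, hg, hgf⟩ := exists_newform hg₀
  rcases (Nat.dvd_prime hp).mp hM with rfl | rfl
  · exact absurd (Fermat.Agent.Patching.cuspForm_weight_two_eq_zero 1 (by norm_num) g) hg.ne_zero
  · refine ⟨g, hg, eq_smul_of_eigen hg fun l hl hlp => ?_⟩
    rw [hlam l hl hlp, hgf l hl hlp, hcoeff l hl hlp]

/-- At prime level the Hecke algebra has `genus` distinct characters. -/
theorem exists_eigen_systems (p : ℕ) [NeZero p] (hp : p.Prime) :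
    ∃ θ : Fin (Gamma0.genus p) → FullHecke p →+* integralClosure ℤ ℂ, Function.Injective θ := by
  classical
  haveI := IntegralStructure.finiteDimensional_cuspForm p
  haveI : Module.Finite ℤ (FullHecke p) := IntegralStructure.heckeAlgebra_finite p 2 ∅
  set S := {f : CuspForm (Gamma0 p) 2 | ∀ l (hl : l.Prime), ¬ l ∣ p → ∃ c : ℂ, hOp p hl f = c • f}
  have hspan : Submodule.span ℂ S = ⊤ := span_eigenvectors_eq_top
  obtain ⟨b, hbS, hbspan, hb⟩ := exists_linearIndependent ℂ S
  let B : Module.Basis b ℂ (CuspForm (Gamma0 p) 2) := Module.Basis.mk hb (by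
    rw [Subtype.range_coe, hbspan, hspan])
  haveI : Finite b := Module.Finite.finite_basis B
  haveI : Fintype b := Fintype.ofFinite b
  have hdim : Fintype.card b = Gamma0.genus p := by
    rw [← Module.finrank_eq_card_basis B]
    have h := (Poincare.finrank_cuspForm_two p).trans (Gamma0.genus_eq p).symm
    exact_mod_cast h
  have hne : ∀ i : b, (i : CuspForm (Gamma0 p) 2) ≠ 0 := fun i h =>
    hb.ne_zero i h
  choose g hg hfg using fun i : b => exists_newform_of_good_eigen hp (hne i) (hbS i.2)
  choose θ hθ using fun i : b => exists_eigenform_character (hg i).isNormalizedEigenform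
  suffices hinj : Function.Injective θ by
    exact ⟨θ ∘ (Fintype.equivFinOfCardEq hdim).symm, hinj.comp (Equiv.injective _)⟩
  intro i j hij
  have hmem : ∀ i : b, ∀ l (hl : l.Prime), ¬ l ∣ p →
      hOp p hl (g i) = qCoeff (g i) l • g i :=
    fun i l hl _ => hOp_of_isNormalizedEigenform (hg i).isNormalizedEigenform hl
  have hgg : g i = qCoeff (g i) 1 • g j := eq_smul_of_eigen (hg j) fun l hl hlp => by
    rw [hmem i l hl hlp, ← hθ i l hl, hij, hθ j l hl]
  rw [(hg i).isNormalizedEigenform.qCoeff_one, one_smul] at hgg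
  by_contra hne'
  have hne'' : qCoeff (j : CuspForm (Gamma0 p) 2) 1 ≠ 0 := fun h0 =>
    hne j (by rw [hfg j, h0, zero_smul])
  have hrel : (qCoeff (i : CuspForm (Gamma0 p) 2) 1 / qCoeff (j : CuspForm (Gamma0 p) 2) 1) •
      (j : CuspForm (Gamma0 p) 2) = (i : CuspForm (Gamma0 p) 2) := by
    refine (congrArg _ (hfg j)).trans ?_
    rw [smul_smul, div_mul_cancel₀ _ hne'', ← hgg]
    exact (hfg i).symm
  refine hb.notMem_span_image (s := {j}) (x := i) (by simpa using hne') ?_
  rw [Set.image_singleton]
  exact Submodule.mem_span_singleton.mpr ⟨_, hrel⟩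

end Fermat.Agent.Mazur.Eisenstein

end
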