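import Fermat.Agent.FiniteFlat.GalOrderOps
import Fermat.Agent.Mazur.Eisenstein.Assembly
import Fermat.Agent.Mazur.Eisenstein.Connected
import Fermat.Agent.Mazur.Eisenstein.CycInertia
import Fermat.Agent.Mazur.Eisenstein.Inputs

/-!
# Fixed torsion classes of order `r` do not reduce to zero at `r`

In a Galois order at `r`, inertia acts through the cyclotomic character on classes congruent to
zero; a fixed one is then killed by `2 - 1`.
-/

set_option autoImplicit false
set_option linter.style.haveILetI false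

noncomputable section

open ModularCurve
open Fermat.Agent.Arith Fermat.Agent.FiniteFlat
open scoped Pointwise

namespace Fermat.Agent.Mazur.Eisenstein

/-- A fixed point killed by `r > 2` which is congruent to zero at `r` is zero. -/
theorem eq_zero_of_fixed_congruent {M : Type} [AddCommGroup M] [DistribMulAction GQ M] [Finite M]
    {A : ValuationSubring QBar} {r : ℕ} (hA : A.LiesOverPrime r) (hr : r.Prime) (hr2 : r ≠ 2)
    (O : GalOrder r M) {x : M} (hfix : ∀ σ : GQ, σ • x = x) (hrx : r • x = 0)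
    (hcong : ∀ f ∈ O.H, ∀ k : ℤ, f (k • x) - f 0 ∈ A.nonunits) : x = 0 := by
  haveI := Fact.mk hr
  set S := AddSubgroup.zmultiples x with hS
  have hfixS : ∀ (σ : GQ), ∀ y ∈ S, σ • y = y := by
    intro σ y hy
    obtain ⟨k, rfl⟩ := AddSubgroup.mem_zmultiples_iff.mp hy
    exact (map_zsmul (DistribSMul.toAddMonoidHom M σ) k x).trans (congrArg _ (hfix σ))
  letI := subAction (G := GQ) S (fun σ y hy => (hfixS σ y hy).symm ▸ hy)
  have hfix' : ∀ (σ : GQ) (y : S), σ • y = y := fun σ y => Subtype.ext (hfixS σ y y.2)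
  have hkill : ∀ y : S, r • y = 0 := fun ⟨y, hy⟩ => Subtype.ext (by
    obtain ⟨k, rfl⟩ := AddSubgroup.mem_zmultiples_iff.mp hy
    simp [smul_comm r k x, hrx])
  let O' : GalOrder r S := O.restrict S.subtype Subtype.val_injective fun _ _ => rfl
  have hr3 : 2 < r := lt_of_le_of_ne hr.two_le (Ne.symm hr2)
  obtain ⟨ζ₀, hζ₀⟩ := HasEnoughRootsOfUnity.exists_primitiveRoot QBar r
  have h2 : Nat.Coprime 2 r := (Nat.coprime_primes Nat.prime_two hr).mpr (Ne.symm hr2)
  have hζ₁ : IsPrimitiveRoot ζ₀ (r ^ (0 + 1)) := by rw [zero_add, pow_one]; exact hζ₀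
  have hζ₂ : IsPrimitiveRoot (ζ₀ ^ 2) (r ^ (0 + 1)) := by
    rw [zero_add, pow_one]; exact hζ₀.pow_of_coprime 2 h2
  obtain ⟨σ, hσ, hσζ⟩ := exists_inertia_apply hA hr hζ₁ hζ₂
  have hexp : Monoid.exponent (Multiplicative S) ∣ r :=
    Monoid.exponent_dvd_of_forall_pow_eq_one fun y => by
      exact congrArg Multiplicative.ofAdd (hkill y.toAdd)
  have hc : ∀ ζ : QBar, ζ ^ Monoid.exponent (Multiplicative S) = 1 → σ ζ = ζ ^ 2 := by
    intro ζ hζ
    have hζr : ζ ^ r = 1 :=
      orderOf_dvd_iff_pow_eq_one.mp ((orderOf_dvd_iff_pow_eq_one.mpr hζ).trans hexp)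
    obtain ⟨i, -, rfl⟩ := hζ₀.eq_pow_of_pow_eq_one hζr
    rw [map_pow, hσζ, ← pow_mul, ← pow_mul, mul_comm]
  have hstab : ∀ g : (ValuationSubring.inertiaSubgroupIn ℚ A), ∀ y ∈ (⊤ : AddSubgroup S),
      g • y ∈ (⊤ : AddSubgroup S) := fun _ _ _ => AddSubgroup.mem_top _
  have hadm : letI := subAction (⊤ : AddSubgroup S) hstab
      IsAdmissible (⊤ : AddSubgroup S) r
        (1 : (ValuationSubring.inertiaSubgroupIn ℚ A) →* (ZMod r)ˣ) := by
    letI := subAction (⊤ : AddSubgroup S) hstab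
    refine ⟨fun b => ⟨1, ?_⟩, fun g b => ⟨1, ?_⟩⟩
    · rw [pow_one]; exact Subtype.ext (hkill b)
    · haveI : Fact (1 < r) := ⟨hr.one_lt⟩
      have hb : g • b = b := Subtype.ext (hfix' g b)
      simp [pieceOp, hb, ZMod.val_one]
  have hcong' : ∀ f ∈ O'.H, ∀ y ∈ (⊤ : AddSubgroup S), f y - f 0 ∈ A.nonunits := by
    rintro f ⟨g, hg, rfl⟩ ⟨y, hy⟩ -
    obtain ⟨k, rfl⟩ := AddSubgroup.mem_zmultiples_iff.mp hy
    exact hcong g hg k
  have h := inertia_smul_of_congruent hA hr O' 1 ⊤ hstab hadm hcong' hσ hc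
    (x := ⟨x, AddSubgroup.mem_zmultiples x⟩) (AddSubgroup.mem_top _)
  rw [hfix', two_nsmul, left_eq_add] at h
  exact congrArg Subtype.val h

/-- The orders at `r` give `FixedTorsionProperty`. -/
theorem fixedTorsionProperty {p : ℕ} [NeZero p] (hp : p.Prime) (hord : OrderProperty p) :
    FixedTorsionProperty p := by
  intro r hr hr2 hrp A hA x hfix hrx hx
  obtain ⟨M, _, _, _, i, O, hi, hσ, hrange, hcong⟩ :=
    hord r hr (fun h => hrp ((Nat.prime_dvd_prime_iff_eq hr hp).mp h)) A hA 1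
  obtain ⟨x', rfl⟩ := hrange x (by rw [pow_one]; exact hrx)
  have hx' : x' = 0 := eq_zero_of_fixed_congruent hA hr hr2 O
    (fun σ => hi (by rw [hσ, hfix])) (hi (by rw [map_nsmul, hrx, map_zero]))
    (fun f hf k => hcong f hf _ (by
      rw [map_zsmul, map_zsmul, reductionModL_eq_zero_of_mem hx, smul_zero]))
  rw [hx', map_zero]

end Fermat.Agent.Mazur.Eisenstein

end
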