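import Fermat.Agent.Mazur.Eisenstein.Consequences
import Fermat.Agent.Mazur.Eisenstein.DescentProof
import Fermat.Agent.Mazur.Eisenstein.FixedTorsion
import Fermat.Agent.RedTorsion.Injective
import Fermat.Agent.Semistable.Unipotent.Main

/-!
# Mazur's theorems, given the geometric inputs at prime level
-/

set_option autoImplicit false
set_option linter.style.haveILetI false

noncomputable section

open ModularCurve
open scoped WeierstrassCurve.Affine

namespace Fermat.Agent.Mazur.Eisenstein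

/-- The geometric inputs at the prime levels `p ∉ {2, 3, 5, 7, 13}`. -/
def PrimeLevelInputs : Prop :=
  ∀ (p : ℕ) [NeZero p], p.Prime → p ∉ ({2, 3, 5, 7, 13} : Finset ℕ) →
    OrderProperty p

variable (h : PrimeLevelInputs)

include h

/-- The three-place lemma from the inputs. -/
theorem threePlaceLemma_of_inputs : Large.ThreePlaceLemma := by
  intro p hp hp' W hΔ T hT hstable h2Δ h2c h2 h3Δ h3c h3 l hl hlp hlΔ hlc A hA
  haveI := Fact.mk hp
  have hinj : EichlerShimura.InjectiveOnTorsion p := RedTorsion.injectiveOnTorsion p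
  have hord := h p hp hp'
  have hss : SemistableProperty p p := Semistable.Unipotent.semistableProperty hp dvd_rfl
    fun h2 => hp.ne_one (Nat.eq_one_of_dvd_coprimes (Nat.coprime_one_left p) (by
      have h3 : p * p ∣ p * 1 := by rwa [mul_one, ← pow_two]
      exact Nat.dvd_of_mul_dvd_mul_left hp.pos h3) dvd_rfl)
  exact component_eq_in hp' hinj (descentProperty hp (five_le_of_not_mem hp hp') hinj hord hss)
    (fixedTorsionProperty hp hord) W hΔ T hT hstable
    h2Δ h2c h3Δ h3c hl hlp hlΔ hlc h2 h3 A hA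

/-- The component lemma for a rational point off the identity component. -/
theorem not_inZeroComponentAt_of_inputs
    {p : ℕ} (hp : p.Prime) (hp' : p ∉ ({2, 3, 5, 7, 13} : Finset ℕ))
    (W : WeierstrassCurve ℤ) (hΔ : W.Δ ≠ 0)
    (Q : ((W.map (Int.castRingHom ℚ))⁄(AlgebraicClosure ℚ)).Point)
    (hQfix : ∀ σ : AlgebraicClosure ℚ ≃ₐ[ℚ] AlgebraicClosure ℚ, σ • Q = Q)
    (hQord : addOrderOf Q = p)
    (h2Δ : (2 : ℤ) ∣ W.Δ) (h2c₄ : ¬ (2 : ℤ) ∣ W.c₄)
    (h2 : ∀ A : ValuationSubring (AlgebraicClosure ℚ), A.LiesOverPrime 2 →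
      ¬ W.InZeroComponentAt A Q)
    (h3Δ : (3 : ℤ) ∣ W.Δ) (h3c₄ : ¬ (3 : ℤ) ∣ W.c₄)
    (h3 : ∀ A : ValuationSubring (AlgebraicClosure ℚ), A.LiesOverPrime 3 →
      ¬ W.InZeroComponentAt A Q)
    {ℓ : ℕ} (hℓ : ℓ.Prime) (hℓp : ℓ ≠ p) (hℓΔ : (ℓ : ℤ) ∣ W.Δ) (hℓc₄ : ¬ (ℓ : ℤ) ∣ W.c₄)
    (A : ValuationSubring (AlgebraicClosure ℚ)) (hA : A.LiesOverPrime ℓ) :
    ¬ W.InZeroComponentAt A Q := by
  haveI := Fact.mk hp
  have hinj : EichlerShimura.InjectiveOnTorsion p := RedTorsion.injectiveOnTorsion p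
  have hord := h p hp hp'
  have hss : SemistableProperty p p := Semistable.Unipotent.semistableProperty hp dvd_rfl
    fun h2 => hp.ne_one (Nat.eq_one_of_dvd_coprimes (Nat.coprime_one_left p) (by
      have h3 : p * p ∣ p * 1 := by rwa [mul_one, ← pow_two]
      exact Nat.dvd_of_mul_dvd_mul_left hp.pos h3) dvd_rfl)
  exact component_eq_out hp' hinj (descentProperty hp (five_le_of_not_mem hp hp') hinj hord hss)
    (fixedTorsionProperty hp hord) W hΔ Q hQord (fun σ => ⟨1, by rw [hQfix, one_smul]⟩)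
    h2Δ h2c₄ h3Δ h3c₄ hℓ hℓp hℓΔ hℓc₄ h2 h3 A hA

end Fermat.Agent.Mazur.Eisenstein

end
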