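import Fermat.Agent.Mazur.Eisenstein.Inputs
import Fermat.Agent.FiniteFlat.TorsionOrder

/-!
# Galois orders on the torsion of `J₀(N)` with congruences on reduction classes
-/

set_option autoImplicit false

noncomputable section

open ModularCurve
open Fermat.Agent.Arith Fermat.Agent.FiniteFlat

namespace Fermat.Agent.Mazur.Eisenstein

theorem orderProperty (N : ℕ) [NeZero N] : OrderProperty N := by
  intro r hr hrN A hA m
  have hc : ((r ^ m : ℕ) : ℤ) ≠ 0 := Int.natCast_ne_zero.mpr (pow_ne_zero m hr.ne_zero)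
  obtain ⟨O, hO⟩ := exists_galOrder_jTorsBy (N := N) hr hrN A hA hc
  refine ⟨JTorsBy N ((r ^ m : ℕ) : ℤ), inferInstance, inferInstance, finite_jTorsBy N hc,
    (Submodule.torsionBy ℤ (JZero N) _).subtype.toAddMonoidHom, O, fun x y h => Subtype.ext h,
    fun g x => rfl, fun x hx => ?_, fun f hf x hx => hO f hf x hx⟩
  exact ⟨⟨x, (Submodule.mem_torsionBy_iff _ _).mpr (by rw [natCast_zsmul]; exact hx)⟩, rfl⟩

end Fermat.Agent.Mazur.Eisenstein

end
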